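/-
Cluster GAL, block E (helper203).  Expansions at all cusps: for `γ ∈ SL(2,ℤ)` the `ℚ̄`-algebra
homomorphism `cuspEmb M γ : y ↦ texpL (γ • Psi y)`, `FN M → ℚ̄((t))`, `t = q^(1/M)`, and its values
on the generators `j(q^d)` in terms of a Hermite normal form of `diag(d,1) γ⁻¹`.
-/
import Fermat.Agent.GAL.E.Embed

set_option autoImplicit false

noncomputable section

namespace Fermat.Agent.GAL.E

open ModularCurve AlgebraicCurve Fermat.Agent.S24 Fermat.Agent.S24.B CongruenceSubgroup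
open UpperHalfPlane
open scoped MatrixGroups Real

/-- `j(d δ τ) = j((a τ + b) / d')` if `diag(d,1) δ = δ' [[a, b], [0, d']]`. -/
theorem jfun_dilMat_of_hermite (d : ℕ) [NeZero d] (δ δ' : SL(2, ℤ)) (a b d' : ℤ) (ha : 0 < a)
    (hd' : 0 < d')
    (h : (!![(d : ℤ), 0; 0, 1] : Matrix (Fin 2) (Fin 2) ℤ) * δ.1 = δ'.1 * !![a, b; 0, d'])
    (τ : ℍ) : jfun (dilMat d • δ • τ) = jfun (triMat a b d' ha hd' • τ) := by
  have hgg : dilMat d * (δ : GL (Fin 2) ℝ) = (δ' : GL (Fin 2) ℝ) * triMat a b d' ha hd' := by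
    apply Units.ext
    rw [Units.val_mul, Units.val_mul, coe_triMat, coe_dilMat]
    have e1 : ((δ : GL (Fin 2) ℝ) : Matrix (Fin 2) (Fin 2) ℝ) = δ.1.map (Int.cast : ℤ → ℝ) := by
      ext i j; simp
    have e2 : ((δ' : GL (Fin 2) ℝ) : Matrix (Fin 2) (Fin 2) ℝ) = δ'.1.map (Int.cast : ℤ → ℝ) := by
      ext i j; simp
    have e3 : (!![(a : ℝ), (b : ℝ); 0, (d' : ℝ)] : Matrix (Fin 2) (Fin 2) ℝ) =
        (!![a, b; 0, d'] : Matrix (Fin 2) (Fin 2) ℤ).map (Int.cast : ℤ → ℝ) := by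
      ext i j
      fin_cases i <;> fin_cases j <;> simp
    rw [e1, e2, e3]
    have h2 := congrArg (fun M : Matrix (Fin 2) (Fin 2) ℤ => M.map (Int.cast : ℤ → ℝ)) h
    have m1 := Matrix.map_mul (L := (!![(d : ℤ), 0; 0, 1] : Matrix (Fin 2) (Fin 2) ℤ)) (M := δ.1)
      (f := Int.castRingHom ℝ)
    have m2 := Matrix.map_mul (L := δ'.1) (M := (!![a, b; 0, d'] : Matrix (Fin 2) (Fin 2) ℤ))
      (f := Int.castRingHom ℝ)
    simp only [Int.coe_castRingHom] at m1 m2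
    rw [← m1, ← m2]
    exact h2
  have h1 : dilMat d • δ • τ = δ' • triMat a b d' ha hd' • τ := by
    show dilMat d • (δ : GL (Fin 2) ℝ) • τ = (δ' : GL (Fin 2) ℝ) • _ • τ
    rw [← mul_smul, ← mul_smul, hgg]
  rw [h1, Stubs.jfun_smul]

/-- **(C0)** the expansion of `j(d τ)` at the cusp `δ ∞`. -/
theorem texp_smul_jd_of_hermite {M : ℕ} [NeZero M] (d : ℕ) [NeZero d] (hd : d ∣ M)
    (δ δ' : SL(2, ℤ)) (a b d' : ℤ) (ha : 0 < a) (hd' : 0 < d')
    (h : (!![(d : ℤ), 0; 0, 1] : Matrix (Fin 2) (Fin 2) ℤ) * δ.1 = δ'.1 * !![a, b; 0, d'])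
    (e : ℕ) [NeZero e] (he : (e : ℤ) * d' = M * a) (ξ : Kbarˣ)
    (hξ : iota (ξ : Kbar) = Complex.exp (2 * π * Complex.I * b / d')) :
    texp M (δ⁻¹ • jd M d hd) = qExpand Kbar e (twist ξ (Jser 1)) := by
  apply texp_eq
  have hfun : (δ⁻¹ • jd M d hd).1 = fun τ => jfun (triMat a b d' ha hd' • τ) := by
    funext τ
    show jfun (dilMat d • (δ⁻¹)⁻¹ • τ) = _
    rw [inv_inv]
    exact jfun_dilMat_of_hermite d δ δ' a b d' ha hd' h τ
  rw [hfun]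
  exact hasTExp_tri (N := M) Stubs.hasTExp_jfun a b d' ha hd' e he ξ hξ

/-- The expansion at the cusp `γ⁻¹ ∞`, in the parameter `t = q^(1/M)`. -/
def cuspEmb (M : ℕ) [NeZero M] (γ : SL(2, ℤ)) : FN M →ₐ[Kbar] LaurentSeries Kbar :=
  { (texpL M).toRingHom.comp
      ((MulSemiringAction.toRingHom SL(2, ℤ) (LN M) γ).comp (Psi M).toRingHom) with
    commutes' := fun c => by
      show texpL M (γ • Psi M (algebraMap Kbar (FN M) c)) = _
      rw [AlgHom.commutes, smul_algebraMap_Kbar, AlgHom.commutes] }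

theorem cuspEmb_apply (M : ℕ) [NeZero M] (γ : SL(2, ℤ)) (y : FN M) :
    cuspEmb M γ y = texpL M (γ • Psi M y) := rfl

theorem cuspEmb_injective (M : ℕ) [NeZero M] (γ : SL(2, ℤ)) :
    Function.Injective (cuspEmb M γ) := (cuspEmb M γ).toRingHom.injective

theorem cuspEmb_one (M : ℕ) [NeZero M] (y : FN M) :
    cuspEmb M 1 y = qExpand Kbar M (y : LaurentSeries Kbar) := by
  rw [cuspEmb_apply, one_smul, texpL_Psi]
  rfl

theorem cuspEmb_of_mem_Gamma0 (M : ℕ) [NeZero M] (γ : SL(2, ℤ)) (hγ : γ ∈ Gamma0 M) (y : FN M) :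
    cuspEmb M γ y = qExpand Kbar M (y : LaurentSeries Kbar) := by
  rw [cuspEmb_apply, smul_Psi_of_mem_Gamma0 γ hγ, texpL_Psi]
  rfl

theorem cuspEmb_JF {M : ℕ} [NeZero M] (d : ℕ) [NeZero d] (hd : d ∣ M)
    (δ δ' : SL(2, ℤ)) (a b d' : ℤ) (ha : 0 < a) (hd' : 0 < d')
    (h : (!![(d : ℤ), 0; 0, 1] : Matrix (Fin 2) (Fin 2) ℤ) * δ.1 = δ'.1 * !![a, b; 0, d'])
    (e : ℕ) [NeZero e] (he : (e : ℤ) * d' = M * a) (ξ : Kbarˣ)
    (hξ : iota (ξ : Kbar) = Complex.exp (2 * π * Complex.I * b / d')) :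
    cuspEmb M δ⁻¹ (JF M d hd) = qExpand Kbar e (twist ξ (Jser 1)) := by
  rw [cuspEmb_apply, Psi_JF, smul_algebraMap_AL, texpL_algebraMap,
    texp_smul_jd_of_hermite d hd δ δ' a b d' ha hd' h e he ξ hξ]

/-- `j(d τ)` is invariant under `δ` if `d` divides the lower left entry. -/
theorem cuspEmb_JF_of_dvd {M : ℕ} [NeZero M] (d : ℕ) [NeZero d] (hd : d ∣ M) (γ : SL(2, ℤ))
    (h : (d : ℤ) ∣ γ⁻¹ 1 0) : cuspEmb M γ (JF M d hd) = qExpand Kbar M (Jser d) := by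
  rw [cuspEmb_apply, Psi_JF, smul_algebraMap_AL, smul_jd_of_dvd γ d hd h, texpL_algebraMap,
    texp_jd]

theorem JF_congr {M d d' : ℕ} [NeZero d] [NeZero d'] (h : d = d') (hd : d ∣ M) (hd' : d' ∣ M) :
    JF M d hd = JF M d' hd' := by
  subst h
  rfl

theorem Jser_congr {d d' : ℕ} [NeZero d] [NeZero d'] (h : d = d') : Jser d = Jser d' := by
  subst h
  rfl

/-- two algebra homomorphisms on `FN N` which agree on the `j(q^d)` are equal -/
theorem algHom_ext_FN {N : ℕ} [NeZero N] {R : Type*} [Field R] [Algebra Kbar R]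
    (φ₁ φ₂ : FN N →ₐ[Kbar] R)
    (hJ : ∀ (d : ℕ) (_ : NeZero d) (hd : d ∣ N), φ₁ (JF N d hd) = φ₂ (JF N d hd)) : φ₁ = φ₂ := by
  have h := ringHom_ext_FN φ₁.toRingHom φ₂.toRingHom hJ
    (fun c => (φ₁.commutes c).trans (φ₂.commutes c).symm)
  exact AlgHom.ext fun y => RingHom.congr_fun h y

end Fermat.Agent.GAL.E

end
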