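/-
Cluster GAL, block E (helper203).  **(C1)** The Atkin-Lehner involution `W_ℓ` of `FN (N ℓ)` for
`ℓ` coprime to `N`:  `j(q^(d₀ d₁)) ↦ j(q^(d₀ ℓ / d₁))`, `d₀ ∣ N`, `d₁ ∣ ℓ`.
-/
import Fermat.Agent.GAL.E.Cusps.General

set_option autoImplicit false

noncomputable section

namespace Fermat.Agent.GAL.E

open ModularCurve AlgebraicCurve Fermat.Agent.S24 Fermat.Agent.S24.B CongruenceSubgroup
open UpperHalfPlane
open scoped MatrixGroups Real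

/-- lifting a ring homomorphism through an injective one -/
def liftInj {A B C : Type*} [Ring A] [Ring B] [Ring C] (ι : A →+* C)
    (hι : Function.Injective ι) (f : B →+* C) (h : ∀ y, f y ∈ ι.range) : B →+* A :=
  ((RingEquiv.ofBijective ι.rangeRestrict
    ⟨fun a b hab => hι (congrArg Subtype.val hab), ι.rangeRestrict_surjective⟩).symm :
      ι.range →+* A).comp (f.codRestrict ι.range h)

theorem liftInj_spec {A B C : Type*} [Ring A] [Ring B] [Ring C] (ι : A →+* C)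
    (hι : Function.Injective ι) (f : B →+* C) (h : ∀ y, f y ∈ ι.range) (y : B) :
    ι (liftInj ι hι f h y) = f y := by
  have h1 := (RingEquiv.ofBijective ι.rangeRestrict
    ⟨fun a b hab => hι (congrArg Subtype.val hab), ι.rangeRestrict_surjective⟩).apply_symm_apply
      (f.codRestrict ι.range h y)
  exact congrArg Subtype.val h1

section
variable (N ℓ : ℕ) [NeZero N] [NeZero ℓ]

theorem alDelta_det (h : Nat.Coprime ℓ N) :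
    (ℓ : ℤ) * Int.gcdA ℓ N - N * (- Int.gcdB ℓ N) = 1 := by
  have h1 := Int.gcd_eq_gcd_ab ℓ N
  rw [Int.gcd_natCast_natCast, h] at h1
  push_cast at h1
  linarith

/-- The matrix `δ = [[1, q], [N, s ℓ]]`, `ℓ s - N q = 1`. -/
def alDelta (h : Nat.Coprime ℓ N) : SL(2, ℤ) :=
  ⟨!![1, - Int.gcdB ℓ N; (N : ℤ), Int.gcdA ℓ N * ℓ], by
    rw [Matrix.det_fin_two_of]
    linear_combination alDelta_det N ℓ h⟩

theorem alDelta_mem (h : Nat.Coprime ℓ N) : alDelta N ℓ h ∈ Gamma0 N := by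
  rw [Gamma0_mem]
  show (((!![1, - Int.gcdB ℓ N; (N : ℤ), Int.gcdA ℓ N * ℓ] : Matrix (Fin 2) (Fin 2) ℤ) 1 0 : ℤ) :
    ZMod N) = 0
  simp

theorem cuspEmb_alDelta_JF (h : Nat.Coprime ℓ N) (d₀ d₁ d₁' : ℕ) [NeZero d₀] [NeZero d₁]
    [NeZero d₁'] (h₀ : d₀ ∣ N) (h₁ : d₁ * d₁' = ℓ) (hd : d₀ * d₁ ∣ N * ℓ) :
    cuspEmb (N * ℓ) (alDelta N ℓ h)⁻¹ (JF (N * ℓ) (d₀ * d₁) hd) =
      qExpand Kbar N (Jser (d₀ * d₁')) := by
  obtain ⟨k, hk⟩ := h₀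
  have hdet := alDelta_det N ℓ h
  set s : ℤ := Int.gcdA ℓ N with hs
  set q : ℤ := - Int.gcdB ℓ N with hq
  have hℓ : (ℓ : ℤ) = d₁ * d₁' := by rw [← h₁]; push_cast; ring
  have hNk : (N : ℤ) = d₀ * k := by rw [hk]; push_cast; ring
  let δ' : SL(2, ℤ) := ⟨!![(d₁ : ℤ), d₀ * q; (k : ℤ), s * d₁'], by
    rw [Matrix.det_fin_two_of]
    rw [hℓ, hNk] at hdet
    linear_combination hdet⟩
  have hd₀ : (0 : ℤ) < (d₀ : ℤ) := by exact_mod_cast Nat.pos_of_ne_zero (NeZero.ne d₀)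
  have hd₁ : (0 : ℤ) < (d₁ : ℤ) := by exact_mod_cast Nat.pos_of_ne_zero (NeZero.ne d₁)
  have hmat : (!![((d₀ * d₁ : ℕ) : ℤ), 0; 0, 1] : Matrix (Fin 2) (Fin 2) ℤ) * (alDelta N ℓ h).1 =
      δ'.1 * !![(d₀ : ℤ), 0; 0, (d₁ : ℤ)] := by
    show (!![((d₀ * d₁ : ℕ) : ℤ), 0; 0, 1] : Matrix (Fin 2) (Fin 2) ℤ) *
      !![1, q; (N : ℤ), s * ℓ] = !![(d₁ : ℤ), d₀ * q; (k : ℤ), s * d₁'] * !![(d₀ : ℤ), 0; 0, (d₁ : ℤ)]
    rw [hℓ, hNk]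
    ext i j
    fin_cases i <;> fin_cases j <;> simp [Matrix.mul_apply, Fin.sum_univ_two] <;> ring
  rw [cuspEmb_JF (d₀ * d₁) hd (alDelta N ℓ h) δ' (d₀ : ℤ) 0 (d₁ : ℤ) hd₀ hd₁ hmat
    (N * (d₀ * d₁')) (by rw [← h₁]; push_cast; ring) 1 (by simp), twist_one,
    Jser_eq_qExpand (d₀ * d₁'), ModularCurve.qExpand_qExpand]

/-- `f(q) ↦ f(t^N)` on `FN (N ℓ)`. -/
def phiAL : FN (N * ℓ) →+* LaurentSeries Kbar :=
  (qExpand Kbar N).comp (modularFunctionFieldBar (N * ℓ)).val.toRingHom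

theorem phiAL_apply (y : FN (N * ℓ)) : phiAL N ℓ y = qExpand Kbar N (y : LaurentSeries Kbar) := rfl

theorem phiAL_injective : Function.Injective (phiAL N ℓ) := (phiAL N ℓ).injective

theorem cuspEmb_alDelta_mem_range (h : Nat.Coprime ℓ N) (y : FN (N * ℓ)) :
    (cuspEmb (N * ℓ) (alDelta N ℓ h)⁻¹).toRingHom y ∈ (phiAL N ℓ).range := by
  show cuspEmb (N * ℓ) (alDelta N ℓ h)⁻¹ y ∈ (phiAL N ℓ).range
  induction y using FN_induction with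
  | hJ d _ hd =>
    obtain ⟨d₀, d₁, h₀, ⟨d₁', h₁⟩, rfl⟩ := (Nat.dvd_mul).1 hd
    have : NeZero d₀ := ⟨fun h0 => NeZero.ne (d₀ * d₁) (by rw [h0, zero_mul])⟩
    have : NeZero d₁ := ⟨fun h0 => NeZero.ne (d₀ * d₁) (by rw [h0, mul_zero])⟩
    have : NeZero d₁' := ⟨fun h0 => NeZero.ne ℓ (by rw [h₁, h0, mul_zero])⟩
    rw [cuspEmb_alDelta_JF N ℓ h d₀ d₁ d₁' h₀ h₁.symm hd]
    exact ⟨JF (N * ℓ) (d₀ * d₁') (mul_dvd_mul h₀ ⟨d₁, by rw [h₁, mul_comm]⟩), rfl⟩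
  | hc c =>
    refine ⟨algebraMap Kbar _ c, ?_⟩
    rw [AlgHom.commutes, phiAL_apply]
    show qExpand Kbar N (algebraMap Kbar (LaurentSeries Kbar) c) = _
    rw [algebraMap_laurentSeries_eq_single, qExpand_single, mul_zero]
  | hadd f g hf hg => rw [map_add]; exact add_mem hf hg
  | hneg f hf => rw [map_neg]; exact neg_mem hf
  | hmul f g hf hg => rw [map_mul]; exact mul_mem hf hg
  | hinv f hf =>
    obtain ⟨z, hz⟩ := hf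
    exact ⟨z⁻¹, by rw [map_inv₀, map_inv₀, hz]⟩

/-- The Atkin-Lehner involution, as a ring homomorphism. -/
def wALHom (h : Nat.Coprime ℓ N) : FN (N * ℓ) →+* FN (N * ℓ) :=
  liftInj (phiAL N ℓ) (phiAL_injective N ℓ) (cuspEmb (N * ℓ) (alDelta N ℓ h)⁻¹).toRingHom
    (cuspEmb_alDelta_mem_range N ℓ h)

/-- the Atkin-Lehner involution is the expansion at the cusp `δ ∞`, `δ ∈ Γ₀(N)` -/
theorem qExpand_wALHom (h : Nat.Coprime ℓ N) (y : FN (N * ℓ)) :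
    qExpand Kbar N ((wALHom N ℓ h y : FN (N * ℓ)) : LaurentSeries Kbar) =
      cuspEmb (N * ℓ) (alDelta N ℓ h)⁻¹ y :=
  liftInj_spec (phiAL N ℓ) (phiAL_injective N ℓ) _ (cuspEmb_alDelta_mem_range N ℓ h) y

theorem wALHom_JF (h : Nat.Coprime ℓ N) (d₀ d₁ d₁' : ℕ) [NeZero d₀] [NeZero d₁]
    [NeZero d₁'] (h₀ : d₀ ∣ N) (h₁ : d₁ * d₁' = ℓ) (hd : d₀ * d₁ ∣ N * ℓ)
    (hd' : d₀ * d₁' ∣ N * ℓ) :
    wALHom N ℓ h (JF (N * ℓ) (d₀ * d₁) hd) = JF (N * ℓ) (d₀ * d₁') hd' := by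
  apply phiAL_injective N ℓ
  rw [phiAL_apply, qExpand_wALHom, cuspEmb_alDelta_JF N ℓ h d₀ d₁ d₁' h₀ h₁ hd]
  rfl

theorem wALHom_algebraMap (h : Nat.Coprime ℓ N) (c : Kbar) :
    wALHom N ℓ h (algebraMap Kbar _ c) = algebraMap Kbar _ c := by
  apply phiAL_injective N ℓ
  rw [phiAL_apply, qExpand_wALHom, AlgHom.commutes, phiAL_apply]
  show _ = qExpand Kbar N (algebraMap Kbar (LaurentSeries Kbar) c)
  rw [algebraMap_laurentSeries_eq_single, qExpand_single, mul_zero]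

theorem wALHom_wALHom (h : Nat.Coprime ℓ N) (y : FN (N * ℓ)) :
    wALHom N ℓ h (wALHom N ℓ h y) = y := by
  have key : (wALHom N ℓ h).comp (wALHom N ℓ h) = RingHom.id _ := by
    refine ringHom_ext_FN _ _ ?_ ?_
    · intro d _ hd
      obtain ⟨d₀, d₁, h₀, ⟨d₁', h₁⟩, rfl⟩ := (Nat.dvd_mul).1 hd
      have : NeZero d₀ := ⟨fun h0 => NeZero.ne (d₀ * d₁) (by rw [h0, zero_mul])⟩
      have : NeZero d₁ := ⟨fun h0 => NeZero.ne (d₀ * d₁) (by rw [h0, mul_zero])⟩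
      have : NeZero d₁' := ⟨fun h0 => NeZero.ne ℓ (by rw [h₁, h0, mul_zero])⟩
      have hd' : d₀ * d₁' ∣ N * ℓ := mul_dvd_mul h₀ ⟨d₁, by rw [h₁, mul_comm]⟩
      show wALHom N ℓ h (wALHom N ℓ h (JF (N * ℓ) (d₀ * d₁) hd)) = JF (N * ℓ) (d₀ * d₁) hd
      rw [wALHom_JF N ℓ h d₀ d₁ d₁' h₀ h₁.symm hd hd',
        wALHom_JF N ℓ h d₀ d₁' d₁ h₀ (by rw [h₁, mul_comm]) hd' hd]
    · intro c
      show wALHom N ℓ h (wALHom N ℓ h (algebraMap Kbar _ c)) = algebraMap Kbar _ c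
      rw [wALHom_algebraMap, wALHom_algebraMap]
  exact RingHom.congr_fun key y

/-- **The Atkin-Lehner involution `W_ℓ`** of `FN (N ℓ)`, `ℓ` coprime to `N`. -/
def wAL (h : Nat.Coprime ℓ N) : FN (N * ℓ) ≃ₐ[Kbar] FN (N * ℓ) :=
  AlgEquiv.ofAlgHom
    { wALHom N ℓ h with commutes' := wALHom_algebraMap N ℓ h }
    { wALHom N ℓ h with commutes' := wALHom_algebraMap N ℓ h }
    (AlgHom.ext fun y => wALHom_wALHom N ℓ h y) (AlgHom.ext fun y => wALHom_wALHom N ℓ h y)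

theorem wAL_apply (h : Nat.Coprime ℓ N) (y : FN (N * ℓ)) : wAL N ℓ h y = wALHom N ℓ h y := rfl

theorem wAL_wAL (h : Nat.Coprime ℓ N) (y : FN (N * ℓ)) : wAL N ℓ h (wAL N ℓ h y) = y :=
  wALHom_wALHom N ℓ h y

theorem wAL_JF (h : Nat.Coprime ℓ N) (d₀ d₁ d₁' : ℕ) [NeZero d₀] [NeZero d₁]
    [NeZero d₁'] (h₀ : d₀ ∣ N) (h₁ : d₁ * d₁' = ℓ) (hd : d₀ * d₁ ∣ N * ℓ)
    (hd' : d₀ * d₁' ∣ N * ℓ) :
    wAL N ℓ h (JF (N * ℓ) (d₀ * d₁) hd) = JF (N * ℓ) (d₀ * d₁') hd' :=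
  wALHom_JF N ℓ h d₀ d₁ d₁' h₀ h₁ hd hd'

/-- `W_ℓ` is the expansion at the cusp `δ ∞` for some `δ ∈ Γ₀(N)`. -/
theorem qExpand_wAL (h : Nat.Coprime ℓ N) (y : FN (N * ℓ)) :
    qExpand Kbar N ((wAL N ℓ h y : FN (N * ℓ)) : LaurentSeries Kbar) =
      texpL (N * ℓ) ((alDelta N ℓ h)⁻¹ • Psi (N * ℓ) y) :=
  qExpand_wALHom N ℓ h y

/-- `W_ℓ ∘ α = β` -/
theorem wAL_alpha (h : Nat.Coprime ℓ N) (x : FN N) :
    wAL N ℓ h (heckeAlphaBar Kbar N ℓ x) = heckeBetaBar Kbar N ℓ x := by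
  have key : ((wAL N ℓ h : FN (N * ℓ) →ₐ[Kbar] FN (N * ℓ)).comp (heckeAlphaBar Kbar N ℓ)) =
      heckeBetaBar Kbar N ℓ := by
    refine algHom_ext_FN _ _ ?_
    intro d _ hd
    show wAL N ℓ h (heckeAlphaBar Kbar N ℓ (JF N d hd)) = heckeBetaBar Kbar N ℓ (JF N d hd)
    rw [heckeAlphaBar_JF, heckeBetaBar_JF,
      JF_congr (mul_one d).symm (hd.mul_right ℓ) (by rw [mul_one]; exact hd.mul_right ℓ),
      wAL_JF N ℓ h d 1 ℓ hd (one_mul ℓ) _ (mul_dvd_mul hd dvd_rfl)]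
    exact JF_congr (mul_comm d ℓ) _ _
  exact AlgHom.congr_fun key x

/-- `W_ℓ ∘ β = α` -/
theorem wAL_beta (h : Nat.Coprime ℓ N) (x : FN N) :
    wAL N ℓ h (heckeBetaBar Kbar N ℓ x) = heckeAlphaBar Kbar N ℓ x := by
  rw [← wAL_alpha N ℓ h, wAL_wAL]

/-- `W_ℓ` commutes with the Galois action on coefficients. -/
theorem galF_wAL (h : Nat.Coprime ℓ N) (σ : GQ) (y : FN (N * ℓ)) :
    galF (N * ℓ) σ (wAL N ℓ h y) = wAL N ℓ h (galF (N * ℓ) σ y) := by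
  have hJ : ∀ (d : ℕ) [NeZero d] (hd : d ∣ N * ℓ),
      galF (N * ℓ) σ (JF (N * ℓ) d hd) = JF (N * ℓ) d hd := by
    intro d _ hd
    apply Subtype.ext
    rw [coe_galF]
    show coeffMap (σ : Kbar →+* Kbar) (coeffEmb Kbar (qExpand ℚ d jq)) = coeffEmb Kbar _
    ext k
    rw [coeffMap_coeff, coeffEmb_coeff]
    exact map_ratCast (σ : Kbar →+* Kbar) _
  have key : ((galF (N * ℓ) σ : FN (N * ℓ) →+* FN (N * ℓ)).comp (wALHom N ℓ h)) =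
      (wALHom N ℓ h).comp (galF (N * ℓ) σ : FN (N * ℓ) →+* FN (N * ℓ)) := by
    refine ringHom_ext_FN _ _ ?_ ?_
    · intro d _ hd
      obtain ⟨d₀, d₁, h₀, ⟨d₁', h₁⟩, rfl⟩ := (Nat.dvd_mul).1 hd
      have : NeZero d₀ := ⟨fun h0 => NeZero.ne (d₀ * d₁) (by rw [h0, zero_mul])⟩
      have : NeZero d₁ := ⟨fun h0 => NeZero.ne (d₀ * d₁) (by rw [h0, mul_zero])⟩
      have : NeZero d₁' := ⟨fun h0 => NeZero.ne ℓ (by rw [h₁, h0, mul_zero])⟩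
      have hd' : d₀ * d₁' ∣ N * ℓ := mul_dvd_mul h₀ ⟨d₁, by rw [h₁, mul_comm]⟩
      show galF (N * ℓ) σ (wALHom N ℓ h (JF (N * ℓ) (d₀ * d₁) hd)) =
        wALHom N ℓ h (galF (N * ℓ) σ (JF (N * ℓ) (d₀ * d₁) hd))
      rw [hJ, wALHom_JF N ℓ h d₀ d₁ d₁' h₀ h₁.symm hd hd', hJ]
    · intro c
      show galF (N * ℓ) σ (wALHom N ℓ h (algebraMap Kbar _ c)) =
        wALHom N ℓ h (galF (N * ℓ) σ (algebraMap Kbar _ c))
      rw [wALHom_algebraMap, galF_algebraMap, wALHom_algebraMap]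
  exact RingHom.congr_fun key y

end

end Fermat.Agent.GAL.E

end
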