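/-
Cluster GAL, block E (helper203).  The Atkin-Lehner involutions `w1 = W_q` of `FN (N₀ q)` and
`w2 = W_{q²}` of `FN (N₀ q q)` (`q` coprime to `N₀`) and their compatibility with the two
degeneracy maps `α, β : FN (N₀ q) → FN (N₀ q q)`.
-/
import Fermat.Agent.GAL.E.Cusps.AtkinLehner

set_option autoImplicit false

noncomputable section

namespace Fermat.Agent.GAL.E

open ModularCurve AlgebraicCurve Fermat.Agent.S24 Fermat.Agent.S24.B CongruenceSubgroup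

/-- Transport along an equality of levels. -/
def levelCast {M M' : ℕ} (h : M = M') : FN M ≃ₐ[Kbar] FN M' := h ▸ AlgEquiv.refl

theorem coe_levelCast {M M' : ℕ} (h : M = M') (y : FN M) :
    ((levelCast h y : FN M') : LaurentSeries Kbar) = (y : LaurentSeries Kbar) := by
  subst h
  rfl

theorem levelCast_symm {M M' : ℕ} (h : M = M') : (levelCast h).symm = levelCast h.symm := by
  subst h
  rfl

theorem levelCast_JF {M M' : ℕ} (h : M = M') (d : ℕ) [NeZero d] (hd : d ∣ M) (hd' : d ∣ M') :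
    levelCast h (JF M d hd) = JF M' d hd' :=
  Subtype.ext (coe_levelCast h _)

theorem galF_levelCast {M M' : ℕ} (h : M = M') (σ : GQ) (y : FN M) :
    galF M' σ (levelCast h y) = levelCast h (galF M σ y) := by
  subst h
  rfl

section
variable (N₀ q : ℕ) [NeZero N₀] [NeZero q]

/-- `W_q` at level `N₀ q`. -/
def w1 (h : Nat.Coprime q N₀) : FN (N₀ * q) ≃ₐ[Kbar] FN (N₀ * q) := wAL N₀ q h

/-- `W_{q²}` at level `N₀ q q`. -/
def w2 (h : Nat.Coprime q N₀) : FN (N₀ * q * q) ≃ₐ[Kbar] FN (N₀ * q * q) :=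
  ((levelCast (mul_assoc N₀ q q)).trans (wAL N₀ (q * q) (Nat.Coprime.mul_left h h))).trans
    (levelCast (mul_assoc N₀ q q).symm)

theorem w1_JF (h : Nat.Coprime q N₀) (d₀ d₁ d₁' : ℕ) [NeZero d₀] [NeZero d₁]
    [NeZero d₁'] (h₀ : d₀ ∣ N₀) (h₁ : d₁ * d₁' = q) (hd : d₀ * d₁ ∣ N₀ * q)
    (hd' : d₀ * d₁' ∣ N₀ * q) :
    w1 N₀ q h (JF (N₀ * q) (d₀ * d₁) hd) = JF (N₀ * q) (d₀ * d₁') hd' :=
  wAL_JF N₀ q h d₀ d₁ d₁' h₀ h₁ hd hd'

theorem w2_JF (h : Nat.Coprime q N₀) (d₀ d₁ d₁' : ℕ) [NeZero d₀] [NeZero d₁]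
    [NeZero d₁'] (h₀ : d₀ ∣ N₀) (h₁ : d₁ * d₁' = q * q) (hd : d₀ * d₁ ∣ N₀ * q * q)
    (hd' : d₀ * d₁' ∣ N₀ * q * q) :
    w2 N₀ q h (JF (N₀ * q * q) (d₀ * d₁) hd) = JF (N₀ * q * q) (d₀ * d₁') hd' := by
  show levelCast (mul_assoc N₀ q q).symm (wAL N₀ (q * q) _
    (levelCast (mul_assoc N₀ q q) (JF (N₀ * q * q) (d₀ * d₁) hd))) = _
  rw [levelCast_JF (mul_assoc N₀ q q) _ hd (by rw [← mul_assoc]; exact hd),
    wAL_JF N₀ (q * q) _ d₀ d₁ d₁' h₀ h₁ _ (by rw [← mul_assoc]; exact hd'), levelCast_JF]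

theorem w1_w1 (h : Nat.Coprime q N₀) (y : FN (N₀ * q)) : w1 N₀ q h (w1 N₀ q h y) = y :=
  wAL_wAL N₀ q h y

theorem w2_w2 (h : Nat.Coprime q N₀) (y : FN (N₀ * q * q)) : w2 N₀ q h (w2 N₀ q h y) = y := by
  show levelCast (mul_assoc N₀ q q).symm (wAL N₀ (q * q) _ (levelCast (mul_assoc N₀ q q)
    (levelCast (mul_assoc N₀ q q).symm (wAL N₀ (q * q) _ (levelCast (mul_assoc N₀ q q) y))))) = y
  have h1 : ∀ z : FN (N₀ * (q * q)), levelCast (mul_assoc N₀ q q)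
      (levelCast (mul_assoc N₀ q q).symm z) = z := fun z =>
    Subtype.ext (by rw [coe_levelCast, coe_levelCast])
  rw [h1, wAL_wAL]
  exact Subtype.ext (by rw [coe_levelCast, coe_levelCast])

theorem galF_w1 (h : Nat.Coprime q N₀) (σ : GQ) (y : FN (N₀ * q)) :
    galF (N₀ * q) σ (w1 N₀ q h y) = w1 N₀ q h (galF (N₀ * q) σ y) := galF_wAL N₀ q h σ y

theorem galF_w2 (h : Nat.Coprime q N₀) (σ : GQ) (y : FN (N₀ * q * q)) :
    galF (N₀ * q * q) σ (w2 N₀ q h y) = w2 N₀ q h (galF (N₀ * q * q) σ y) := by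
  show galF (N₀ * q * q) σ (levelCast (mul_assoc N₀ q q).symm (wAL N₀ (q * q) _
    (levelCast (mul_assoc N₀ q q) y))) = levelCast (mul_assoc N₀ q q).symm (wAL N₀ (q * q) _
    (levelCast (mul_assoc N₀ q q) (galF (N₀ * q * q) σ y)))
  rw [galF_levelCast, galF_wAL, galF_levelCast]

theorem w1_alpha (h : Nat.Coprime q N₀) (x : FN N₀) :
    w1 N₀ q h (heckeAlphaBar Kbar N₀ q x) = heckeBetaBar Kbar N₀ q x := wAL_alpha N₀ q h x

theorem w1_beta (h : Nat.Coprime q N₀) (x : FN N₀) :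
    w1 N₀ q h (heckeBetaBar Kbar N₀ q x) = heckeAlphaBar Kbar N₀ q x := wAL_beta N₀ q h x

/-- `w2 ∘ α = β ∘ w1` -/
theorem w2_alpha (h : Nat.Coprime q N₀) (y : FN (N₀ * q)) :
    w2 N₀ q h (heckeAlphaBar Kbar (N₀ * q) q y) = heckeBetaBar Kbar (N₀ * q) q (w1 N₀ q h y) := by
  have key : ((w2 N₀ q h : FN (N₀ * q * q) →ₐ[Kbar] FN (N₀ * q * q)).comp
      (heckeAlphaBar Kbar (N₀ * q) q)) =
      (heckeBetaBar Kbar (N₀ * q) q).comp (w1 N₀ q h : FN (N₀ * q) →ₐ[Kbar] FN (N₀ * q)) := by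
    refine algHom_ext_FN _ _ ?_
    intro d _ hd
    obtain ⟨d₀, d₁, h₀, ⟨d₁', h₁⟩, rfl⟩ := (Nat.dvd_mul).1 hd
    have : NeZero d₀ := ⟨fun h0 => NeZero.ne (d₀ * d₁) (by rw [h0, zero_mul])⟩
    have : NeZero d₁ := ⟨fun h0 => NeZero.ne (d₀ * d₁) (by rw [h0, mul_zero])⟩
    have : NeZero d₁' := ⟨fun h0 => NeZero.ne q (by rw [h₁, h0, mul_zero])⟩
    have hd' : d₀ * d₁' ∣ N₀ * q := mul_dvd_mul h₀ ⟨d₁, by rw [h₁, mul_comm]⟩
    show w2 N₀ q h (heckeAlphaBar Kbar (N₀ * q) q (JF (N₀ * q) (d₀ * d₁) hd)) =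
      heckeBetaBar Kbar (N₀ * q) q (w1 N₀ q h (JF (N₀ * q) (d₀ * d₁) hd))
    rw [heckeAlphaBar_JF, w1_JF N₀ q h d₀ d₁ d₁' h₀ h₁.symm hd hd', heckeBetaBar_JF,
      w2_JF N₀ q h d₀ d₁ (d₁' * q) h₀ (by rw [← mul_assoc, ← h₁]) _
        (by rw [← mul_assoc]; exact mul_dvd_mul hd' dvd_rfl)]
    exact JF_congr (by ring) _ _
  exact AlgHom.congr_fun key y

/-- `w2 ∘ β = α ∘ w1` -/
theorem w2_beta (h : Nat.Coprime q N₀) (y : FN (N₀ * q)) :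
    w2 N₀ q h (heckeBetaBar Kbar (N₀ * q) q y) = heckeAlphaBar Kbar (N₀ * q) q (w1 N₀ q h y) := by
  have h1 := w2_alpha N₀ q h (w1 N₀ q h y)
  rw [w1_w1] at h1
  rw [← h1, w2_w2]

end

end Fermat.Agent.GAL.E

end
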