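/-
Cluster GAL, block E (helper203).  **(C2)** The expansions at the cusps `1/(N₀ q r)` of level
`N₀ q²` (`q` prime, `q ∤ N₀`): for every `b` prime to `q` there is `γ ∈ Γ₀(N₀ q)` such that
`cuspEmb (N₀ q q) γ` is `x(q) ↦ x(t^M)` on `α (FN (N₀ q))` and `x₀(q^(q²)) ↦ x₀(ζ^b t^M)` on
`β β (FN N₀)`, `M = N₀ q²`, `t = q^(1/M)`.
-/
import Fermat.Agent.GAL.E.Cusps.AtkinLehner

set_option autoImplicit false

noncomputable section

namespace Fermat.Agent.GAL.E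

open ModularCurve AlgebraicCurve Fermat.Agent.S24 Fermat.Agent.S24.B CongruenceSubgroup
open UpperHalfPlane
open scoped MatrixGroups Real

section
variable (N₀ q : ℕ) [NeZero N₀] [NeZero q]

/-- The matrix `[[1, 0], [N₀ q r, 1]]`. -/
def midDelta (r : ℤ) : SL(2, ℤ) :=
  ⟨!![1, 0; (N₀ : ℤ) * q * r, 1], by rw [Matrix.det_fin_two_of]; ring⟩

theorem midDelta_mem (r : ℤ) : midDelta N₀ q r ∈ Gamma0 (N₀ * q) := by
  rw [Gamma0_mem]
  show (((!![1, 0; (N₀ : ℤ) * q * r, 1] : Matrix (Fin 2) (Fin 2) ℤ) 1 0 : ℤ) : ZMod (N₀ * q)) = 0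
  rw [ZMod.intCast_zmod_eq_zero_iff_dvd]
  simp only [Matrix.of_apply, Matrix.cons_val', Matrix.cons_val_zero, Matrix.cons_val_one]
  exact ⟨r, by push_cast; ring⟩

theorem cuspEmb_midDelta_JF (r m : ℤ) (b : ℕ) (hb : (N₀ : ℤ) * r * b + q * m = 1) (d₀ : ℕ)
    [NeZero d₀] (h₀ : d₀ ∣ N₀) (hd : q * (q * d₀) ∣ N₀ * q * q) :
    cuspEmb (N₀ * q * q) (midDelta N₀ q r)⁻¹ (JF (N₀ * q * q) (q * (q * d₀)) hd) =
      qExpand Kbar (N₀ * q * q) (twist (zetaK q ^ b) (Jser d₀)) := by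
  obtain ⟨k, hk⟩ := h₀
  have hNk : (N₀ : ℤ) = d₀ * k := by rw [hk]; push_cast; ring
  let δ' : SL(2, ℤ) := ⟨!![(q : ℤ), - (d₀ * b); (k : ℤ) * r, m], by
    rw [Matrix.det_fin_two_of]
    rw [hNk] at hb
    linear_combination hb⟩
  have hd₀ : (0 : ℤ) < (d₀ : ℤ) := by exact_mod_cast Nat.pos_of_ne_zero (NeZero.ne d₀)
  have hq : (0 : ℤ) < (q : ℤ) := by exact_mod_cast Nat.pos_of_ne_zero (NeZero.ne q)
  have ha : (0 : ℤ) < (d₀ : ℤ) * q := mul_pos hd₀ hq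
  have hmat : (!![((q * (q * d₀) : ℕ) : ℤ), 0; 0, 1] : Matrix (Fin 2) (Fin 2) ℤ) *
      (midDelta N₀ q r).1 = δ'.1 * !![(d₀ : ℤ) * q, (d₀ : ℤ) * b; 0, (q : ℤ)] := by
    show (!![((q * (q * d₀) : ℕ) : ℤ), 0; 0, 1] : Matrix (Fin 2) (Fin 2) ℤ) *
      !![1, 0; (N₀ : ℤ) * q * r, 1] =
      !![(q : ℤ), - (d₀ * b); (k : ℤ) * r, m] * !![(d₀ : ℤ) * q, (d₀ : ℤ) * b; 0, (q : ℤ)]
    rw [Matrix.mul_fin_two, Matrix.mul_fin_two]
    have hcong : ∀ a b c d a' b' c' d' : ℤ, a = a' → b = b' → c = c' → d = d' →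
        (!![a, b; c, d] : Matrix (Fin 2) (Fin 2) ℤ) = !![a', b'; c', d'] := by
      rintro a b c d _ _ _ _ rfl rfl rfl rfl
      rfl
    apply hcong
    · push_cast; ring
    · push_cast; ring
    · rw [hNk]; ring
    · rw [hNk] at hb
      linear_combination (-1 : ℤ) * hb
  have hξ : iota (((zetaK q ^ b) ^ d₀ : Kbarˣ) : Kbar) =
      Complex.exp (2 * π * Complex.I * (((d₀ : ℤ) * (b : ℤ) : ℤ) : ℂ) / ((q : ℤ) : ℂ)) := by
    have h1 : (zetaK q ^ b) ^ d₀ = zetaK q ^ ((d₀ : ℤ) * (b : ℤ)) := by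
      rw [← pow_mul, ← zpow_natCast]
      congr 1
      push_cast
      ring
    rw [h1, iota_zetaK_zpow]
    simp
  rw [cuspEmb_JF (q * (q * d₀)) hd (midDelta N₀ q r) δ' ((d₀ : ℤ) * q) ((d₀ : ℤ) * b) (q : ℤ) ha hq
    hmat (N₀ * q * q * d₀) (by push_cast; ring) ((zetaK q ^ b) ^ d₀) hξ,
    Jser_eq_qExpand d₀, HeckeComm.twist_qExpand, ModularCurve.qExpand_qExpand]

/-- **(C2)** -/
theorem exists_gamma_mid (hq : q.Prime) (hqN : ¬ q ∣ N₀) (b : ℕ) (hb : ¬ q ∣ b) :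
    ∃ γ : SL(2, ℤ), γ ∈ Gamma0 (N₀ * q) ∧
      (∀ x : FN (N₀ * q), cuspEmb (N₀ * q * q) γ (heckeAlphaBar Kbar (N₀ * q) q x) =
        qExpand Kbar (N₀ * q * q) (x : LaurentSeries Kbar)) ∧
      (∀ x₀ : FN N₀, cuspEmb (N₀ * q * q) γ
          (heckeBetaBar Kbar (N₀ * q) q (heckeBetaBar Kbar N₀ q x₀)) =
        qExpand Kbar (N₀ * q * q) (twist (zetaK q ^ b) (x₀ : LaurentSeries Kbar))) := by
  have hcop : Nat.Coprime (N₀ * b) q :=
    (Nat.Coprime.mul_left ((hq.coprime_iff_not_dvd.2 hqN).symm)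
      ((hq.coprime_iff_not_dvd.2 hb).symm))
  set r : ℤ := Int.gcdA (N₀ * b : ℕ) q with hr
  set m : ℤ := Int.gcdB (N₀ * b : ℕ) q with hm
  have hbez : (N₀ : ℤ) * r * b + q * m = 1 := by
    have h := Int.gcd_eq_gcd_ab (N₀ * b : ℕ) q
    rw [Int.gcd_natCast_natCast, hcop] at h
    push_cast at h
    rw [hr, hm]
    push_cast
    linarith
  refine ⟨(midDelta N₀ q r)⁻¹, inv_mem (midDelta_mem N₀ q r), fun x => ?_, ?_⟩
  · rw [cuspEmb_apply, smul_Psi_alpha (N₀ * q) q _ (inv_mem (midDelta_mem N₀ q r)),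
      texpL_Psi_alpha]
  · have key : ((cuspEmb (N₀ * q * q) (midDelta N₀ q r)⁻¹).toRingHom.comp
        ((heckeBetaBar Kbar (N₀ * q) q).toRingHom.comp (heckeBetaBar Kbar N₀ q).toRingHom)) =
        ((qExpand Kbar (N₀ * q * q)).comp ((twist (zetaK q ^ b)).comp
          (modularFunctionFieldBar N₀).val.toRingHom)) := by
      refine ringHom_ext_FN _ _ ?_ ?_
      · intro d _ hd
        show cuspEmb (N₀ * q * q) (midDelta N₀ q r)⁻¹
            (heckeBetaBar Kbar (N₀ * q) q (heckeBetaBar Kbar N₀ q (JF N₀ d hd))) =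
          qExpand Kbar (N₀ * q * q) (twist (zetaK q ^ b) (Jser d))
        rw [heckeBetaBar_JF, heckeBetaBar_JF, cuspEmb_midDelta_JF N₀ q r m b hbez d hd]
      · intro c
        show cuspEmb (N₀ * q * q) (midDelta N₀ q r)⁻¹
            (heckeBetaBar Kbar (N₀ * q) q (heckeBetaBar Kbar N₀ q (algebraMap Kbar (FN N₀) c))) =
          qExpand Kbar (N₀ * q * q) (twist (zetaK q ^ b) (algebraMap Kbar (LaurentSeries Kbar) c))
        rw [AlgHom.commutes, AlgHom.commutes, AlgHom.commutes, algebraMap_laurentSeries_eq_single]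
        have h0 : (HahnSeries.single 0 c : LaurentSeries Kbar) = HahnSeries.C c := rfl
        rw [h0, twist_C, qExpand_C]
    exact fun x₀ => RingHom.congr_fun key x₀

/-- `FN (N₀ q²)` is generated by `α (FN (N₀ q))` and `β β (FN N₀)`. -/
theorem ringHom_ext_mid (hq : q.Prime) {R : Type*} [Field R] (φ₁ φ₂ : FN (N₀ * q * q) →+* R)
    (hα : ∀ x : FN (N₀ * q), φ₁ (heckeAlphaBar Kbar (N₀ * q) q x) =
      φ₂ (heckeAlphaBar Kbar (N₀ * q) q x))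
    (hβ : ∀ x₀ : FN N₀, φ₁ (heckeBetaBar Kbar (N₀ * q) q (heckeBetaBar Kbar N₀ q x₀)) =
      φ₂ (heckeBetaBar Kbar (N₀ * q) q (heckeBetaBar Kbar N₀ q x₀))) : φ₁ = φ₂ := by
  refine ringHom_ext_FN _ _ ?_ ?_
  · intro d _ hd
    by_cases hdN : d ∣ N₀ * q
    · have h := hα (JF (N₀ * q) d hdN)
      rwa [heckeAlphaBar_JF] at h
    · obtain ⟨d', d₁, h', h₁, rfl⟩ := (Nat.dvd_mul).1 hd
      rcases (Nat.dvd_prime hq).1 h₁ with rfl | rfl
      · exact absurd (by rwa [mul_one]) hdN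
      obtain ⟨d₀, d₂, h₀, h₂, rfl⟩ := (Nat.dvd_mul).1 h'
      rcases (Nat.dvd_prime hq).1 h₂ with rfl | rfl
      · exact absurd (by rw [mul_one]; exact mul_dvd_mul h₀ dvd_rfl) hdN
      have : NeZero d₀ := ⟨fun h0 => NeZero.ne (d₀ * d₂ * d₂) (by rw [h0, zero_mul, zero_mul])⟩
      have h := hβ (JF N₀ d₀ h₀)
      rw [heckeBetaBar_JF, heckeBetaBar_JF] at h
      have e : d₀ * d₂ * d₂ = d₂ * (d₂ * d₀) := by ring
      rw [JF_congr e hd (by rw [← e]; exact hd)]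
      exact h
  · intro c
    have h := hα (algebraMap Kbar _ c)
    rwa [AlgHom.commutes] at h

end

end Fermat.Agent.GAL.E

end
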